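import Fermat.Agent.Gateway.BaseChange.Modular
import Fermat.Agent.S27x.G3.Main
import Fermat.Agent.S27x.G3.Genus
import Fermat.Agent.S27x.A.CountOK
import Fermat.Agent.S27x.Desc.CurveOfTranscendental

/-!
# P-S48, G1 layer (a2): from the analytic realisation over `ℂ` to the torsion of `Pic⁰` over `ℚ̄`
(helper79)

Generic in a rational model `Fq ⊆ ℚ((q))` (for P-S48: `Fq := Model.gamma1Field M`).
`FK := laurentBaseChange Kbar Fq`, `FC := laurentBaseChange ℂ Fq`, `ℂ` a `Kbar`-algebra through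
`S24.Setup.iota` (local instance `Gateway.BaseChange.Modular.algKbarC`).

INPUT (layer (a1)): `x : FK` transcendental over `Kbar` with `FK / Kbar(x)` finite, and an analytic
realisation `D : Dict.ConjAbs.EmbData ℂ FC (RingHom.id ℂ) xC Γ` with `Γ` of finite index and all
`SL(2,ℤ)`-translates cusp-meromorphic of level `n > 0`.

OUTPUT:
* `isCurveOver_FK`, `essFiniteType_FK`, `isCurveOver_FC`, `essFiniteType_FC`;
* `bcPic0`, `bcPic0_injective`, `genusFF_eq`, `torsionEquiv`, `card_torsion_eq` (base change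
  `Kbar → ℂ`, from the generic `S27x/G3` package applied to `(isBC Fq).toSetup`);
* `countOK_C`, `countOK_Kbar` : `#Pic⁰[m] = m ^ (2 g)` over `ℂ` and over `Kbar`;
* `thetaEquivC`, `thetaEquivKbar` : `Pic⁰(FK)[m] ≃+ Hom_pe(Γ, μ_m)`, with
  `thetaEquivKbar_apply : thetaEquivKbar y = θ (bcPic0 y)`.
-/

set_option autoImplicit false
set_option linter.unusedSectionVars false
set_option linter.style.haveILetI false

noncomputable section

open scoped MatrixGroups

namespace Fermat.Agent.S48x.G1a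

open ModularCurve AlgebraicCurve IntermediateField
open Fermat.Agent.S24 Fermat.Agent.S24.Setup Fermat.Agent.S24.CuspOrd
open Fermat.Agent.Gateway.BaseChange Fermat.Agent.Gateway.BaseChange.Modular
open Fermat.Agent.Gateway.A2 Fermat.Agent.Gateway.A2.Count
open Fermat.Agent.Gateway.Dict.ConjAbs
open Fermat.Agent.S27x

attribute [local instance] Fermat.Agent.Gateway.BaseChange.Modular.algKbarC

variable (Fq : IntermediateField ℚ (LaurentSeries ℚ))

/-- The base change pair `FK ⊆ FC`. -/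
theorem isBC : IsBC (laurentBaseChange Kbar Fq) (laurentBaseChange ℂ Fq) :=
  isBC_laurentBaseChange Kbar ℂ Fq

variable {Fq}
variable {x : laurentBaseChange Kbar Fq} (hx : Transcendental Kbar x)
  [FiniteDimensional Kbar⟮x⟯ (laurentBaseChange Kbar Fq)]

/-! ### Curve instances -/

include hx in
theorem isCurveOver_FK : IsCurveOver Kbar (laurentBaseChange Kbar Fq) :=
  Desc.isCurveOver_of_transcendental hx

theorem essFiniteType_FK (x : laurentBaseChange Kbar Fq)
    [FiniteDimensional Kbar⟮x⟯ (laurentBaseChange Kbar Fq)] :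
    Algebra.EssFiniteType Kbar (laurentBaseChange Kbar Fq) :=
  Desc.essFiniteType_of_transcendental x

/-- The image of `x` in `FC`. -/
def xC (x : laurentBaseChange Kbar Fq) : laurentBaseChange ℂ Fq := (isBC Fq).iotaF x

include hx in
theorem transcendental_xC : Transcendental ℂ (xC x) :=
  G3.transcendental_ι (isBC Fq).toSetup hx

theorem finiteDimensional_xC (x : laurentBaseChange Kbar Fq)
    [FiniteDimensional Kbar⟮x⟯ (laurentBaseChange Kbar Fq)] :
    FiniteDimensional ℂ⟮xC x⟯ (laurentBaseChange ℂ Fq) :=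
  G3.finiteDimensional_ι (isBC Fq).toSetup x

include hx in
theorem isCurveOver_FC : IsCurveOver ℂ (laurentBaseChange ℂ Fq) :=
  haveI := finiteDimensional_xC x
  Desc.isCurveOver_of_transcendental (transcendental_xC hx)

theorem essFiniteType_FC (x : laurentBaseChange Kbar Fq)
    [FiniteDimensional Kbar⟮x⟯ (laurentBaseChange Kbar Fq)] :
    Algebra.EssFiniteType ℂ (laurentBaseChange ℂ Fq) :=
  haveI := finiteDimensional_xC x
  Desc.essFiniteType_of_transcendental (xC x)

/-! ### Base change `Kbar → ℂ` -/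

/-- Base change `Pic⁰(FK) → Pic⁰(FC)`. -/
def bcPic0 : Pic0 Kbar (laurentBaseChange Kbar Fq) →+ Pic0 ℂ (laurentBaseChange ℂ Fq) :=
  (isBC Fq).toSetup.bcPic0 (PD.residue_surjective hx)

theorem bcPic0_injective : Function.Injective (bcPic0 hx) :=
  G3.bcPic0_injective_cz (isBC Fq).toSetup hx

include hx in
/-- The genus does not change under `Kbar → ℂ`. -/
theorem genusFF_eq :
    genusFF ℂ (laurentBaseChange ℂ Fq) = genusFF Kbar (laurentBaseChange Kbar Fq) :=
  G3.genusFF_eq (isBC Fq).toSetup hx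

/-- Base change is an isomorphism on `n`-torsion when the complex torsion is finite. -/
def torsionEquiv (n : ℕ) [Finite (Pic0.torsion ℂ (laurentBaseChange ℂ Fq) n)] :
    Pic0.torsion Kbar (laurentBaseChange Kbar Fq) n ≃+
      Pic0.torsion ℂ (laurentBaseChange ℂ Fq) n :=
  G3.torsionEquiv_cz (isBC Fq).toSetup hx n

theorem coe_torsionEquiv (n : ℕ) [Finite (Pic0.torsion ℂ (laurentBaseChange ℂ Fq) n)]
    (y : Pic0.torsion Kbar (laurentBaseChange Kbar Fq) n) :
    (torsionEquiv hx n y : Pic0 ℂ (laurentBaseChange ℂ Fq)) = bcPic0 hx (y : Pic0 Kbar _) := rfl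

include hx in
theorem card_torsion_eq (n : ℕ) [Finite (Pic0.torsion ℂ (laurentBaseChange ℂ Fq) n)] :
    Nat.card (Pic0.torsion Kbar (laurentBaseChange Kbar Fq) n)
      = Nat.card (Pic0.torsion ℂ (laurentBaseChange ℂ Fq) n) :=
  Nat.card_congr (torsionEquiv hx n).toEquiv

/-! ### The analytic side -/

variable {y : laurentBaseChange ℂ Fq} {Γ : Subgroup SL(2, ℤ)} [Γ.FiniteIndex]
  (D : EmbData ℂ (laurentBaseChange ℂ Fq) (RingHom.id ℂ) y Γ) {n : ℕ} (hn : 0 < n)
  (hcusp : ∀ (f : laurentBaseChange ℂ Fq) (g : SL(2, ℤ)), IsCuspMer n (g • D.emb f))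

include hx D hn hcusp in
/-- `#Pic⁰(FC)[m] = m ^ (2 g)`. -/
theorem countOK_C : Contract.CountOK ℂ (laurentBaseChange ℂ Fq) :=
  haveI := isCurveOver_FC hx
  A.countOK D hn hcusp

include hx D hn hcusp in
theorem finite_torsion_C {m : ℕ} (hm : 0 < m) :
    Finite (Pic0.torsion ℂ (laurentBaseChange ℂ Fq) m) := by
  apply Nat.finite_of_card_ne_zero
  rw [countOK_C hx D hn hcusp m hm]
  exact (pow_pos hm _).ne'

include hx D hn hcusp in
/-- `#Pic⁰(FK)[m] = m ^ (2 g)`: the torsion count over `ℚ̄`. -/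
theorem countOK_Kbar : Contract.CountOK Kbar (laurentBaseChange Kbar Fq) := by
  intro m hm
  haveI := finite_torsion_C hx D hn hcusp hm
  rw [card_torsion_eq hx m, countOK_C hx D hn hcusp m hm, genusFF_eq hx]

/-- `θ : Pic⁰(FC)[m] ≃+ Hom_pe(Γ, μ_m)`. -/
def thetaEquivC (m : ℕ) [NeZero m] :
    haveI := isCurveOver_FC hx
    Pic0.torsion ℂ (laurentBaseChange ℂ Fq) m ≃+ Additive (charPE Γ (rootsOfUnity m ℂ)) :=
  haveI := isCurveOver_FC hx
  Theta.thetaEquivG m hn (A.placeCases D hn hcusp)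

/-- `θ ∘ bc : Pic⁰(FK)[m] ≃+ Hom_pe(Γ, μ_m)`. -/
def thetaEquivKbar (m : ℕ) [NeZero m] :
    Pic0.torsion Kbar (laurentBaseChange Kbar Fq) m ≃+ Additive (charPE Γ (rootsOfUnity m ℂ)) :=
  haveI := finite_torsion_C hx D hn hcusp (Nat.pos_of_ne_zero (NeZero.ne m))
  (torsionEquiv hx m).trans (thetaEquivC hx D hn hcusp m)

theorem thetaEquivKbar_apply (m : ℕ) [NeZero m]
    (z : Pic0.torsion Kbar (laurentBaseChange Kbar Fq) m) :
    haveI := finite_torsion_C hx D hn hcusp (Nat.pos_of_ne_zero (NeZero.ne m))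
    thetaEquivKbar hx D hn hcusp m z = thetaEquivC hx D hn hcusp m (torsionEquiv hx m z) := rfl

end Fermat.Agent.S48x.G1a
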