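import Fermat.Agent.S48x.G1a.Transfer
import Fermat.Agent.S48x.HeckeFF.BaseChange
import Fermat.Agent.S48x.HeckeFF.Theta
import Fermat.Agent.S48x.HeckeFF.NormProd1
import Fermat.Agent.S48x.G1.XiGeneric

/-!
# P-S48 (Deligne–Serre), G1 layer (a2)/(b2) glue: `thetaEquivKbar` against Hecke and diamonds
(helper79)

`θ_K := Transfer.thetaEquivKbar : Pic⁰(F₀ ⊗ ℚ̄)[m] ≃+ Hom_pe(±Γ₁(M), μ_m)` is the composite of the
base change isomorphism `ℚ̄ → ℂ` on torsion (`Transfer.torsionEquiv = HeckeFF.torsionEquivG`) with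
the complex `θ` of `S27x/Theta` (`Transfer.thetaEquivC`).  Combining

* (B6) base change of correspondences / intertwined automorphisms (`HeckeFF/BaseChange`,
  helper86; here for an ARBITRARY pair `(φ, ψ)` of homomorphisms `F₀ → F₁` compatible with the
  base change: `bcG_corrOf`, `torsionEquivG_corrTorsion`), and
* (B4) `HeckeFF.ThetaEq.theta_corrOf`, `theta_corrOf_twisted`, `theta_smul` (helper4),

we get the equivariance statements for `θ_K` which feed `xi_T`, `xi_D` of `G1.Final.JSide1`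
through `G1.Xi.peRes_xiOfTheta_hecke`, `peRes_xiOfTheta_diam`, `peRes_xiOfTheta_hecke_twisted`
(`G1/XiGeneric.lean`):

* `torsionEquiv_eq_torsionEquivG` (`rfl`), `dictInputC` (`emb = D.emb` by `rfl`);
* `thetaEquivKbar_corr_twisted` / `thetaChar_thetaEquivKbar_corr_twisted`: for a pair with the
  conjugate-norm formula `NormConjFormula` over `ℂ` (the NAIVE pair `(V_p, incl)`):
  `θ_K (T x) = heckeChar1 (diamChar δ (θ_K x))`, `δ = twDelta`;
* `thetaEquivKbar_corr` / `thetaChar_thetaEquivKbar_corr`: for a pair with the untwisted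
  `NormProdFormula1`: `θ_K (T x) = heckeChar1 (θ_K x)`;
* `thetaEquivKbar_smul` / `thetaChar_thetaEquivKbar_smul`:
  `θ_K (g₀ • x) = diamChar τ (θ_K x)` for a pair of semilinear automorphisms `g₀`, `g₁` of
  `F₀ ⊗ ℚ̄`, `F₀ ⊗ ℂ` intertwined by the base change, with `emb (g₁ • f) = τ⁻¹ • emb f`;
* `thetaChar_thetaEquivKbar_corr_twisted_smul`: the composite `θ_K (T (g₀ • x))`;
* the specialisations `..._heckeG...` to the naive pair `(betaG, alphaG)` of `HeckeFF/Pair`
  (hence to `betaL`, `alphaL`, `heckeL` of `HeckeFF/Level`, which are instances of it).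

Everything is generic in the rational model fields `F₀`, `F₁`.
-/

set_option autoImplicit false
set_option linter.unusedSectionVars false
set_option linter.style.haveILetI false

noncomputable section

open scoped MatrixGroups

namespace Fermat.Agent.S48x.G1a

open ModularCurve AlgebraicCurve IntermediateField CongruenceSubgroup
open Fermat.Agent.S24 Fermat.Agent.S24.Setup Fermat.Agent.S24.CuspOrd
open Fermat.Agent.Gateway.BaseChange Fermat.Agent.Gateway.BaseChange.Modular
open Fermat.Agent.Gateway.A2 Fermat.Agent.Gateway.A2.Count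
open Fermat.Agent.Gateway.Dict.ConjAbs
open Fermat.Agent.S27x Fermat.Agent.S48x.G1 Fermat.Agent.S48x.HeckeFF

attribute [local instance] Fermat.Agent.Gateway.BaseChange.Modular.algKbarC

variable {F₀ F₁ : IntermediateField ℚ (LaurentSeries ℚ)}

/-! ### Base change of a general correspondence -/

section GeneralPair

variable {K L : Type*} [Field K] [Field L] [Algebra K L] [Algebra ℚ K] [Algebra ℚ L]
  [IsScalarTower ℚ K L]
  {φK ψK : laurentBaseChange K F₀ →ₐ[K] laurentBaseChange K F₁}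
  {φL ψL : laurentBaseChange L F₀ →ₐ[L] laurentBaseChange L F₁}
  (hφ : ∀ f, φL ((setupG K L F₀).ι f) = (setupG K L F₁).ι (φK f))
  (hψ : ∀ f, ψL ((setupG K L F₀).ι f) = (setupG K L F₁).ι (ψK f))
  (JK : FFInputs φK ψK) (JL : FFInputs φL ψL)

include hφ hψ in
/-- **Base change commutes with every correspondence** `ψ_* φ^*` whose two legs are compatible with
the base change. -/
theorem bcG_corrOf
    (hK : ∀ v : Place K (laurentBaseChange K F₀),
      Function.Surjective (algebraMap K v.ResidueField))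
    (hK' : ∀ v : Place K (laurentBaseChange K F₁),
      Function.Surjective (algebraMap K v.ResidueField))
    (x : Pic0 K (laurentBaseChange K F₀)) :
    bcG K L F₀ hK (corrOf JK x) = corrOf JL (bcG K L F₀ hK x) := by
  haveI := JK.pd'
  haveI := JL.pd'
  exact Setup.bcPic0_correspondence (setupG K L F₀) (setupG K L F₁) hK hK'
    φK φL JK.intφ JL.intφ hφ ψK ψL JK.intψ JL.intψ hψ
    JK.fiφ JK.finψ JK.nfψ JL.fiφ JL.finψ JL.nfψ x

end GeneralPair

/-- An additive endomorphism of `Pic⁰` restricted to the `m`-torsion (any constant field). -/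
def corrTorsion {K F : Type*} [Field K] [Field F] [Algebra K F] (T : Pic0 K F →+ Pic0 K F)
    (m : ℕ) : Pic0.torsion K F m →+ Pic0.torsion K F m :=
  (T.comp (Pic0.torsion K F m).subtype).codRestrict (Pic0.torsion K F m) (fun x => by
    rw [Pic0.mem_torsion]
    have hx : (m : ℤ) • (x : Pic0 K F) = 0 := Pic0.mem_torsion.mp x.2
    show (m : ℤ) • T (x : Pic0 K F) = 0
    rw [← map_zsmul, hx, map_zero])

@[simp] theorem coe_corrTorsion {K F : Type*} [Field K] [Field F] [Algebra K F]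
    (T : Pic0 K F →+ Pic0 K F) (m : ℕ) (x : Pic0.torsion K F m) :
    ((corrTorsion T m x : Pic0.torsion K F m) : Pic0 K F) = T (x : Pic0 K F) := rfl

theorem corrTorsion_eq_torsionMap {F : Type*} [Field F] [Algebra ℂ F]
    (T : Pic0 ℂ F →+ Pic0 ℂ F) (m : ℕ) : corrTorsion T m = ThetaEq.torsionMap T m := rfl

theorem corrTorsion_heckeG {L : Type*} [Field L] [Algebra ℚ L] {p : ℕ} [NeZero p]
    {hle : F₀ ≤ F₁} {hq : ∀ y ∈ F₀, qExpand ℚ p y ∈ F₁}
    (I : FFInputs (betaG L p hq) (alphaG L hle)) (m : ℕ) :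
    corrTorsion (heckeG I) m = heckeTorsionG I m := rfl

section TorsionPair

variable {K L : Type*} [Field K] [Field L] [Algebra K L] [Algebra ℚ K] [Algebra ℚ L]
  [IsScalarTower ℚ K L] [IsAlgClosed K] [IsAlgClosed L] [CharZero K]
  {φK ψK : laurentBaseChange K F₀ →ₐ[K] laurentBaseChange K F₁}
  {φL ψL : laurentBaseChange L F₀ →ₐ[L] laurentBaseChange L F₁}
  (hφ : ∀ f, φL ((setupG K L F₀).ι f) = (setupG K L F₁).ι (φK f))
  (hψ : ∀ f, ψL ((setupG K L F₀).ι f) = (setupG K L F₁).ι (ψK f))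
  (JK : FFInputs φK ψK) (JL : FFInputs φL ψL)
  {t : laurentBaseChange K F₀} (ht : Transcendental K t)
  [FiniteDimensional K⟮t⟯ (laurentBaseChange K F₀)]

include hφ hψ in
/-- The torsion isomorphism `Pic⁰(F₀_K)[n] ≃ Pic⁰(F₀_L)[n]` intertwines the correspondences. -/
theorem torsionEquivG_corrTorsion
    (hK' : ∀ v : Place K (laurentBaseChange K F₁),
      Function.Surjective (algebraMap K v.ResidueField))
    (n : ℕ) [Finite (Pic0.torsion L (laurentBaseChange L F₀) n)]
    (z : Pic0.torsion K (laurentBaseChange K F₀) n) :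
    torsionEquivG (L := L) ht n (corrTorsion (corrOf JK) n z)
      = corrTorsion (corrOf JL) n (torsionEquivG (L := L) ht n z) := by
  apply Subtype.ext
  rw [coe_torsionEquivG, coe_corrTorsion, coe_corrTorsion, coe_torsionEquivG,
    bcG_corrOf hφ hψ JK JL _ hK']

end TorsionPair

/-! ### `θ_K` -/

variable {x : laurentBaseChange Kbar F₀} (hx : Transcendental Kbar x)
  [FiniteDimensional Kbar⟮x⟯ (laurentBaseChange Kbar F₀)]

/-- The base change isomorphism of `Transfer` is the one of `HeckeFF/BaseChange`. -/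
theorem torsionEquiv_eq_torsionEquivG (n : ℕ)
    [Finite (Pic0.torsion ℂ (laurentBaseChange ℂ F₀) n)] :
    torsionEquiv hx n = torsionEquivG (L := ℂ) hx n := rfl

variable {y : laurentBaseChange ℂ F₀} {M : ℕ} [NeZero M]
  (D : EmbData ℂ (laurentBaseChange ℂ F₀) (RingHom.id ℂ) y (Gamma1pm M)) {n : ℕ} (hn : 0 < n)
  (hcusp : ∀ (f : laurentBaseChange ℂ F₀) (g : SL(2, ℤ)), IsCuspMer n (g • D.emb f))

/-- The dictionary input over `ℂ` attached to the embedding datum (`A.dictInput`, with the curve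
instance supplied by `hx`). -/
def dictInputC : Theta.DictInputG (Gamma1pm M) n (laurentBaseChange ℂ F₀) :=
  haveI := isCurveOver_FC hx
  A.dictInput D hn hcusp

@[simp] theorem dictInputC_emb : (dictInputC hx D hn hcusp).emb = D.emb := rfl

/-- `θ_ℂ` is the `θ` of the dictionary input. -/
theorem thetaEquivC_eq_theta (m : ℕ) [NeZero m]
    (w : Pic0.torsion ℂ (laurentBaseChange ℂ F₀) m) :
    thetaEquivC hx D hn hcusp m w = Theta.theta (dictInputC hx D hn hcusp) hn w := rfl

/-- `θ_K` is the complex `θ` of the dictionary input after base change. -/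
theorem thetaEquivKbar_eq_theta (m : ℕ) [NeZero m]
    (z : Pic0.torsion Kbar (laurentBaseChange Kbar F₀) m) :
    haveI := finite_torsion_C hx D hn hcusp (NeZero.pos m)
    thetaEquivKbar hx D hn hcusp m z
      = Theta.theta (dictInputC hx D hn hcusp) hn (torsionEquivG (L := ℂ) hx m z) := rfl

/-! ### Correspondences -/

section Corr

variable {p : ℕ} [Fact p.Prime] (hpM : ¬ p ∣ M) (t : Twist M p)
  {φK ψK : laurentBaseChange Kbar F₀ →ₐ[Kbar] laurentBaseChange Kbar F₁}
  {φC ψC : laurentBaseChange ℂ F₀ →ₐ[ℂ] laurentBaseChange ℂ F₁}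
  (hφ : ∀ f, φC ((setupG Kbar ℂ F₀).ι f) = (setupG Kbar ℂ F₁).ι (φK f))
  (hψ : ∀ f, ψC ((setupG Kbar ℂ F₀).ι f) = (setupG Kbar ℂ F₁).ι (ψK f))
  (hK' : ∀ v : Place Kbar (laurentBaseChange Kbar F₁),
    Function.Surjective (algebraMap Kbar v.ResidueField))
  (JK : FFInputs φK ψK) (JC : FFInputs φC ψC)

include hφ hψ hK' in
/-- **`θ_K` and a correspondence with the conjugate-norm formula** (the naive pair
`(V_p, incl)`): `θ_K (T x) = heckeChar1 (diamChar δ (θ_K x))`, `δ = twDelta hpM` (lower right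
entry `≡ p⁻¹`). -/
theorem thetaEquivKbar_corr_twisted
    (hconj : ThetaEq.NormConjFormula hpM (dictInputC hx D hn hcusp) JC)
    (m : ℕ) [NeZero m] (z : Pic0.torsion Kbar (laurentBaseChange Kbar F₀) m) :
    thetaEquivKbar hx D hn hcusp m (corrTorsion (corrOf JK) m z)
      = Additive.ofMul (heckeChar1 hpM t (rootsOfUnity m ℂ)
          (diamChar (ThetaEq.twDelta hpM) (rootsOfUnity m ℂ)
            (Additive.toMul (thetaEquivKbar hx D hn hcusp m z)))) := by
  haveI := finite_torsion_C hx D hn hcusp (NeZero.pos m)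
  rw [thetaEquivKbar_eq_theta, thetaEquivKbar_eq_theta,
    torsionEquivG_corrTorsion hφ hψ JK JC hx hK' m z, corrTorsion_eq_torsionMap]
  exact ThetaEq.theta_corrOf_twisted hpM t (dictInputC hx D hn hcusp) hn JC hconj _

include hφ hψ hK' in
/-- The same in the `thetaChar` form consumed by `G1.Xi.peRes_xiOfTheta_hecke_twisted`
(with `τ := twDelta hpM`). -/
theorem thetaChar_thetaEquivKbar_corr_twisted
    (hconj : ThetaEq.NormConjFormula hpM (dictInputC hx D hn hcusp) JC)
    (m : ℕ) [NeZero m] (z : Pic0.torsion Kbar (laurentBaseChange Kbar F₀) m) :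
    Xi.thetaChar (Gamma1pm M) m (thetaEquivKbar hx D hn hcusp m) (corrTorsion (corrOf JK) m z)
      = heckeCharHom1 hpM t (rootsOfUnity m ℂ)
          (diamCharHom (ThetaEq.twDelta hpM) (rootsOfUnity m ℂ)
            (Xi.thetaChar (Gamma1pm M) m (thetaEquivKbar hx D hn hcusp m) z)) := by
  unfold Xi.thetaChar
  rw [thetaEquivKbar_corr_twisted hx D hn hcusp hpM t hφ hψ hK' JK JC hconj, toMul_ofMul,
    heckeChar1_coe, diamChar_coe]

include hφ hψ hK' in
/-- **`θ_K` and a correspondence with the untwisted norm-product formula**: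
`θ_K (T x) = heckeChar1 (θ_K x)`. -/
theorem thetaEquivKbar_corr
    (hD5 : ThetaEq.NormProdFormula1 t (dictInputC hx D hn hcusp) JC)
    (m : ℕ) [NeZero m] (z : Pic0.torsion Kbar (laurentBaseChange Kbar F₀) m) :
    thetaEquivKbar hx D hn hcusp m (corrTorsion (corrOf JK) m z)
      = Additive.ofMul (heckeChar1 hpM t (rootsOfUnity m ℂ)
          (Additive.toMul (thetaEquivKbar hx D hn hcusp m z))) := by
  haveI := finite_torsion_C hx D hn hcusp (NeZero.pos m)
  rw [thetaEquivKbar_eq_theta, thetaEquivKbar_eq_theta,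
    torsionEquivG_corrTorsion hφ hψ JK JC hx hK' m z, corrTorsion_eq_torsionMap]
  exact ThetaEq.theta_corrOf hpM t (dictInputC hx D hn hcusp) hn JC hD5 _

include hφ hψ hK' in
/-- The same in the `thetaChar` form consumed by `G1.Xi.peRes_xiOfTheta_hecke`. -/
theorem thetaChar_thetaEquivKbar_corr
    (hD5 : ThetaEq.NormProdFormula1 t (dictInputC hx D hn hcusp) JC)
    (m : ℕ) [NeZero m] (z : Pic0.torsion Kbar (laurentBaseChange Kbar F₀) m) :
    Xi.thetaChar (Gamma1pm M) m (thetaEquivKbar hx D hn hcusp m) (corrTorsion (corrOf JK) m z)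
      = heckeCharHom1 hpM t (rootsOfUnity m ℂ)
          (Xi.thetaChar (Gamma1pm M) m (thetaEquivKbar hx D hn hcusp m) z) := by
  unfold Xi.thetaChar
  rw [thetaEquivKbar_corr hx D hn hcusp hpM t hφ hψ hK' JK JC hD5, toMul_ofMul, heckeChar1_coe]

end Corr

/-! ### Diamond automorphisms -/

section Diamond

variable (τ : Gamma0 M)
  (g₀ : SemilinearAut Kbar (laurentBaseChange Kbar F₀))
  (g₁ : SemilinearAut ℂ (laurentBaseChange ℂ F₀))
  (hg : ∀ f, g₁ • (setupG Kbar ℂ F₀).ι f = (setupG Kbar ℂ F₀).ι (g₀ • f))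
  (hemb : ∀ f, D.emb (g₁ • f) = (τ : SL(2, ℤ))⁻¹ • D.emb f)

include hg hemb in
/-- **`θ_K` and diamond automorphisms.**  `θ_K (g₀ • x) = diamChar τ (θ_K x)`. -/
theorem thetaEquivKbar_smul (m : ℕ) [NeZero m]
    (z : Pic0.torsion Kbar (laurentBaseChange Kbar F₀) m) :
    thetaEquivKbar hx D hn hcusp m (g₀ • z)
      = Additive.ofMul (diamChar τ (rootsOfUnity m ℂ)
          (Additive.toMul (thetaEquivKbar hx D hn hcusp m z))) := by
  haveI := finite_torsion_C hx D hn hcusp (NeZero.pos m)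
  rw [thetaEquivKbar_eq_theta, thetaEquivKbar_eq_theta, torsionEquivG_smul hx m g₀ g₁ hg z]
  exact ThetaEq.theta_smul (dictInputC hx D hn hcusp) hn τ g₁ hemb _

include hg hemb in
/-- The same in the `thetaChar` form consumed by `G1.Xi.peRes_xiOfTheta_diam`. -/
theorem thetaChar_thetaEquivKbar_smul (m : ℕ) [NeZero m]
    (z : Pic0.torsion Kbar (laurentBaseChange Kbar F₀) m) :
    Xi.thetaChar (Gamma1pm M) m (thetaEquivKbar hx D hn hcusp m) (g₀ • z)
      = diamCharHom τ (rootsOfUnity m ℂ)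
          (Xi.thetaChar (Gamma1pm M) m (thetaEquivKbar hx D hn hcusp m) z) := by
  unfold Xi.thetaChar
  rw [thetaEquivKbar_smul hx D hn hcusp τ g₀ g₁ hg hemb, toMul_ofMul, diamChar_coe]

end Diamond

/-! ### The composite `T ∘ ⟨d⟩` -/

section Twisted

variable {p : ℕ} [Fact p.Prime] (hpM : ¬ p ∣ M) (t : Twist M p)
  {φK ψK : laurentBaseChange Kbar F₀ →ₐ[Kbar] laurentBaseChange Kbar F₁}
  {φC ψC : laurentBaseChange ℂ F₀ →ₐ[ℂ] laurentBaseChange ℂ F₁}
  (hφ : ∀ f, φC ((setupG Kbar ℂ F₀).ι f) = (setupG Kbar ℂ F₁).ι (φK f))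
  (hψ : ∀ f, ψC ((setupG Kbar ℂ F₀).ι f) = (setupG Kbar ℂ F₁).ι (ψK f))
  (hK' : ∀ v : Place Kbar (laurentBaseChange Kbar F₁),
    Function.Surjective (algebraMap Kbar v.ResidueField))
  (JK : FFInputs φK ψK) (JC : FFInputs φC ψC)
  (τ : Gamma0 M)
  (g₀ : SemilinearAut Kbar (laurentBaseChange Kbar F₀))
  (g₁ : SemilinearAut ℂ (laurentBaseChange ℂ F₀))
  (hg : ∀ f, g₁ • (setupG Kbar ℂ F₀).ι f = (setupG Kbar ℂ F₀).ι (g₀ • f))
  (hemb : ∀ f, D.emb (g₁ • f) = (τ : SL(2, ℤ))⁻¹ • D.emb f)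

include hφ hψ hK' hg hemb in
/-- `θ_K (T (g₀ • x)) = T_p (⟨δ⟩ (⟨τ⟩ (θ_K x)))` for a correspondence with the conjugate-norm
formula and a diamond automorphism: the standard `T_p` is the case `lr τ = p`, for which
`⟨δ⟩ ⟨τ⟩` is trivial on characters of `±Γ₁(M)`. -/
theorem thetaChar_thetaEquivKbar_corr_twisted_smul
    (hconj : ThetaEq.NormConjFormula hpM (dictInputC hx D hn hcusp) JC)
    (m : ℕ) [NeZero m] (z : Pic0.torsion Kbar (laurentBaseChange Kbar F₀) m) :
    Xi.thetaChar (Gamma1pm M) m (thetaEquivKbar hx D hn hcusp m)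
        (corrTorsion (corrOf JK) m (g₀ • z))
      = heckeCharHom1 hpM t (rootsOfUnity m ℂ)
          (diamCharHom (ThetaEq.twDelta hpM) (rootsOfUnity m ℂ)
            (diamCharHom τ (rootsOfUnity m ℂ)
              (Xi.thetaChar (Gamma1pm M) m (thetaEquivKbar hx D hn hcusp m) z))) := by
  rw [thetaChar_thetaEquivKbar_corr_twisted hx D hn hcusp hpM t hφ hψ hK' JK JC hconj,
    thetaChar_thetaEquivKbar_smul hx D hn hcusp τ g₀ g₁ hg hemb]

end Twisted

/-! ### The naive pair `(betaG, alphaG)` -/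

section Naive

variable {p : ℕ} [NeZero p] [Fact p.Prime] (hpM : ¬ p ∣ M) (t : Twist M p)
  {hle : F₀ ≤ F₁} {hq : ∀ y ∈ F₀, qExpand ℚ p y ∈ F₁}
  (hK' : ∀ v : Place Kbar (laurentBaseChange Kbar F₁),
    Function.Surjective (algebraMap Kbar v.ResidueField))
  (IK : FFInputs (betaG Kbar p hq) (alphaG Kbar hle))
  (IC : FFInputs (betaG ℂ p hq) (alphaG ℂ hle))

include hK' in
/-- **`θ_K` and the naive Hecke correspondence** `heckeG = α_* β^*` (`β = V_p`):
`θ_K (T x) = heckeChar1 (diamChar δ (θ_K x))`. -/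
theorem thetaEquivKbar_heckeG_twisted
    (hconj : ThetaEq.NormConjFormula hpM (dictInputC hx D hn hcusp) IC)
    (m : ℕ) [NeZero m] (z : Pic0.torsion Kbar (laurentBaseChange Kbar F₀) m) :
    thetaEquivKbar hx D hn hcusp m (heckeTorsionG IK m z)
      = Additive.ofMul (heckeChar1 hpM t (rootsOfUnity m ℂ)
          (diamChar (ThetaEq.twDelta hpM) (rootsOfUnity m ℂ)
            (Additive.toMul (thetaEquivKbar hx D hn hcusp m z)))) :=
  thetaEquivKbar_corr_twisted hx D hn hcusp hpM t (setupG_betaG Kbar ℂ p hq)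
    (setupG_alphaG Kbar ℂ hle) hK' IK IC hconj m z

include hK' in
theorem thetaChar_thetaEquivKbar_heckeG_twisted
    (hconj : ThetaEq.NormConjFormula hpM (dictInputC hx D hn hcusp) IC)
    (m : ℕ) [NeZero m] (z : Pic0.torsion Kbar (laurentBaseChange Kbar F₀) m) :
    Xi.thetaChar (Gamma1pm M) m (thetaEquivKbar hx D hn hcusp m) (heckeTorsionG IK m z)
      = heckeCharHom1 hpM t (rootsOfUnity m ℂ)
          (diamCharHom (ThetaEq.twDelta hpM) (rootsOfUnity m ℂ)
            (Xi.thetaChar (Gamma1pm M) m (thetaEquivKbar hx D hn hcusp m) z)) :=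
  thetaChar_thetaEquivKbar_corr_twisted hx D hn hcusp hpM t (setupG_betaG Kbar ℂ p hq)
    (setupG_alphaG Kbar ℂ hle) hK' IK IC hconj m z

include hK' in
/-- `θ_K (T (g₀ • x)) = T_p (⟨δ⟩ (⟨τ⟩ (θ_K x)))` for the naive Hecke correspondence. -/
theorem thetaChar_thetaEquivKbar_heckeG_twisted_smul
    (hconj : ThetaEq.NormConjFormula hpM (dictInputC hx D hn hcusp) IC)
    (τ : Gamma0 M)
    (g₀ : SemilinearAut Kbar (laurentBaseChange Kbar F₀))
    (g₁ : SemilinearAut ℂ (laurentBaseChange ℂ F₀))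
    (hg : ∀ f, g₁ • (setupG Kbar ℂ F₀).ι f = (setupG Kbar ℂ F₀).ι (g₀ • f))
    (hemb : ∀ f, D.emb (g₁ • f) = (τ : SL(2, ℤ))⁻¹ • D.emb f)
    (m : ℕ) [NeZero m] (z : Pic0.torsion Kbar (laurentBaseChange Kbar F₀) m) :
    Xi.thetaChar (Gamma1pm M) m (thetaEquivKbar hx D hn hcusp m) (heckeTorsionG IK m (g₀ • z))
      = heckeCharHom1 hpM t (rootsOfUnity m ℂ)
          (diamCharHom (ThetaEq.twDelta hpM) (rootsOfUnity m ℂ)
            (diamCharHom τ (rootsOfUnity m ℂ)
              (Xi.thetaChar (Gamma1pm M) m (thetaEquivKbar hx D hn hcusp m) z))) :=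
  thetaChar_thetaEquivKbar_corr_twisted_smul hx D hn hcusp hpM t (setupG_betaG Kbar ℂ p hq)
    (setupG_alphaG Kbar ℂ hle) hK' IK IC τ g₀ g₁ hg hemb hconj m z

end Naive

end Fermat.Agent.S48x.G1a
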